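/-
Lib/Unif (architect helper33): complex uniformisation of elliptic curves and analytic Velu.
File `Velu/Cyclic`: cyclic overlattices `Λ' = Λ + ℤ z₀` of index `N`, summation over cosets.  Mathlib only.
-/
import Mathlib

set_option autoImplicit false

noncomputable section

namespace Fermat.Agent.Lib.Unif

open Filter Topology

/-- `Λ' = Λ + ℤ z₀`, and `z₀` has exact order `N` modulo `Λ`. -/
structure IsCyclicOver (L L' : PeriodPair) (N : ℕ) (z₀ : ℂ) : Prop where
  mem : ∀ z : ℂ, z ∈ L'.lattice ↔ ∃ k : ℤ, z - k * z₀ ∈ L.lattice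
  ord : ∀ k : ℤ, (k : ℂ) * z₀ ∈ L.lattice ↔ (N : ℤ) ∣ k

variable {L L' : PeriodPair} {N : ℕ} {z₀ : ℂ}

theorem IsCyclicOver.neg (h : IsCyclicOver L L' N z₀) : IsCyclicOver L L' N (-z₀) := by
  constructor
  · intro z
    rw [h.mem z]
    constructor
    · rintro ⟨k, hk⟩
      refine ⟨-k, ?_⟩
      have : z - ((-k : ℤ) : ℂ) * -z₀ = z - k * z₀ := by push_cast; ring
      rwa [this]
    · rintro ⟨k, hk⟩
      refine ⟨-k, ?_⟩
      have : z - ((-k : ℤ) : ℂ) * z₀ = z - k * -z₀ := by push_cast; ring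
      rwa [this]
  · intro k
    rw [← h.ord k, mul_neg, neg_mem_iff]

theorem IsCyclicOver.le (h : IsCyclicOver L L' N z₀) {z : ℂ} (hz : z ∈ L.lattice) :
    z ∈ L'.lattice := by
  exact (h.mem z).2 ⟨0, by simpa using hz⟩

theorem IsCyclicOver.mul_notMem (h : IsCyclicOver L L' N z₀) {i : ℕ} (hi : i ∈ Finset.Ico 1 N) :
    (i : ℂ) * z₀ ∉ L.lattice := by
  rw [Finset.mem_Ico] at hi
  intro hc
  have h1 : (((i : ℤ) : ℂ)) * z₀ ∈ L.lattice := by simpa using hc
  have h2 := (h.ord _).1 h1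
  have h3 : N ∣ i := by exact_mod_cast h2
  exact Nat.not_dvd_of_pos_of_lt hi.1 hi.2 h3

theorem IsCyclicOver.cyclic_bijective (h : IsCyclicOver L L' N z₀) (hN : 0 < N) :
    Function.Bijective (fun p : Fin N × L.lattice =>
      (⟨(p.2 : ℂ) + (p.1 : ℕ) * z₀, (h.mem _).2 ⟨((p.1 : ℕ) : ℤ), by
        simpa using p.2.2⟩⟩ : L'.lattice)) := by
  constructor
  · rintro ⟨i, l⟩ ⟨i', l'⟩ hp
    have h1 : (l : ℂ) + (i : ℕ) * z₀ = (l' : ℂ) + (i' : ℕ) * z₀ := congrArg Subtype.val hp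
    have h2 : ((((i : ℕ) : ℤ) - ((i' : ℕ) : ℤ) : ℤ) : ℂ) * z₀ ∈ L.lattice := by
      have : ((((i : ℕ) : ℤ) - ((i' : ℕ) : ℤ) : ℤ) : ℂ) * z₀ = (l' : ℂ) - (l : ℂ) := by
        push_cast
        linear_combination h1
      rw [this]
      exact sub_mem l'.2 l.2
    have h3 := (h.ord _).1 h2
    have h4 : (i : ℕ) = (i' : ℕ) := by
      obtain ⟨c, hc⟩ := h3
      have hi := i.2
      have hi' := i'.2
      have hc0 : c = 0 := by
        by_contra hne
        rcases lt_or_gt_of_ne hne with hlt | hgt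
        · have : (N : ℤ) * c ≤ (N : ℤ) * (-1) :=
            mul_le_mul_of_nonneg_left (by omega) (by omega)
          omega
        · have : (N : ℤ) * 1 ≤ (N : ℤ) * c :=
            mul_le_mul_of_nonneg_left (by omega) (by omega)
          omega
      rw [hc0, mul_zero] at hc
      omega
    have h5 : i = i' := Fin.ext h4
    subst h5
    have h6 : (l : ℂ) = (l' : ℂ) := add_right_cancel h1
    rw [Subtype.ext h6]
  · rintro ⟨z, hz⟩
    obtain ⟨k, hk⟩ := (h.mem z).1 hz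
    have hN' : (0 : ℤ) < N := by exact_mod_cast hN
    have h0 : 0 ≤ k % (N : ℤ) := Int.emod_nonneg _ hN'.ne'
    have h1 : k % (N : ℤ) < N := Int.emod_lt_of_pos _ hN'
    have h2 : ((k % (N : ℤ)).toNat : ℤ) = k % (N : ℤ) := Int.toNat_of_nonneg h0
    have h3 : (k % (N : ℤ)).toNat < N := by omega
    have h4 : ((k - k % (N : ℤ) : ℤ) : ℂ) * z₀ ∈ L.lattice :=
      (h.ord _).2 (Int.dvd_self_sub_emod)
    have h5 : z - ((k % (N : ℤ)).toNat : ℕ) * z₀ ∈ L.lattice := by
      have h6 : (((k % (N : ℤ)).toNat : ℕ) : ℂ) = ((k % (N : ℤ) : ℤ) : ℂ) := by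
        rw [← h2]
        push_cast
        rw [h2]
      have : z - ((k % (N : ℤ)).toNat : ℕ) * z₀
          = (z - k * z₀) + ((k - k % (N : ℤ) : ℤ) : ℂ) * z₀ := by
        rw [h6]
        push_cast
        ring
      rw [this]
      exact add_mem hk h4
    refine ⟨(⟨(k % (N : ℤ)).toNat, h3⟩, ⟨_, h5⟩), ?_⟩
    apply Subtype.ext
    show z - ((k % (N : ℤ)).toNat : ℕ) * z₀ + ((k % (N : ℤ)).toNat : ℕ) * z₀ = z
    ring

/-- every element of `Λ'` is uniquely `l + i z₀`, `l ∈ Λ`, `0 ≤ i < N`. -/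
def IsCyclicOver.equiv (h : IsCyclicOver L L' N z₀) (hN : 0 < N) :
    Fin N × L.lattice ≃ L'.lattice :=
  Equiv.ofBijective
    (fun p => ⟨(p.2 : ℂ) + (p.1 : ℕ) * z₀, (h.mem _).2 ⟨((p.1 : ℕ) : ℤ), by
      simpa using p.2.2⟩⟩)
    (by exact h.cyclic_bijective hN)

theorem IsCyclicOver.coe_equiv (h : IsCyclicOver L L' N z₀) (hN : 0 < N) (p : Fin N × L.lattice) :
    ((h.equiv hN p : L'.lattice) : ℂ) = (p.2 : ℂ) + (p.1 : ℕ) * z₀ := rfl

/-- summation over the cosets (`Equiv.tsum_eq`, `Summable.tsum_prod'`/`tsum_fintype`,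
`Fin.sum_univ_eq_sum_range`). -/
theorem IsCyclicOver.tsum_eq (h : IsCyclicOver L L' N z₀) (hN : 0 < N) (f : ℂ → ℂ)
    (hf : Summable fun l : L'.lattice => f l) :
    ∑' l : L'.lattice, f l = ∑ i ∈ Finset.range N, ∑' l : L.lattice, f ((l : ℂ) + i * z₀) := by
  have h1 : Summable fun p : Fin N × L.lattice => f (h.equiv hN p : L'.lattice) :=
    (h.equiv hN).summable_iff.2 hf
  rw [← (h.equiv hN).tsum_eq (fun l : L'.lattice => f l), h1.tsum_prod, tsum_fintype,
    ← Fin.sum_univ_eq_sum_range (fun i => ∑' l : L.lattice, f ((l : ℂ) + i * z₀)) N]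
  rfl

theorem divN_indep (L : PeriodPair) (N : ℕ) [NeZero N] :
    LinearIndependent ℝ ![L.ω₁ / N, L.ω₂] := by
  have hN : (N : ℝ) ≠ 0 := by exact_mod_cast NeZero.ne N
  have hN' : (N : ℂ) ≠ 0 := by exact_mod_cast NeZero.ne N
  rw [LinearIndependent.pair_iff]
  intro a b hab
  have h1 := LinearIndependent.pair_iff.mp L.indep (a / N) b (by
    rw [← hab]
    simp only [Complex.real_smul]
    push_cast
    field_simp)
  refine ⟨?_, h1.2⟩
  have h2 := h1.1
  rw [div_eq_zero_iff] at h2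
  exact h2.resolve_right hN

/-- the lattice `ℤ ω₁ / N + ℤ ω₂`. -/
def divN (L : PeriodPair) (N : ℕ) [NeZero N] : PeriodPair := ⟨L.ω₁ / N, L.ω₂, divN_indep L N⟩

theorem isCyclicOver_divN (L : PeriodPair) (N : ℕ) [NeZero N] :
    IsCyclicOver L (divN L N) N (L.ω₁ / N) := by
  have hN : (N : ℝ) ≠ 0 := by exact_mod_cast NeZero.ne N
  have hN' : (N : ℂ) ≠ 0 := by exact_mod_cast NeZero.ne N
  constructor
  · intro z
    rw [PeriodPair.mem_lattice]
    show (∃ m n : ℤ, m * (L.ω₁ / N) + n * L.ω₂ = z) ↔ _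
    constructor
    · rintro ⟨m, n, rfl⟩
      refine ⟨m, PeriodPair.mem_lattice.2 ⟨0, n, ?_⟩⟩
      push_cast
      ring
    · rintro ⟨k, hk⟩
      obtain ⟨m, n, hmn⟩ := PeriodPair.mem_lattice.1 hk
      refine ⟨k + m * N, n, ?_⟩
      push_cast
      field_simp
      field_simp at hmn
      linear_combination hmn
  · intro k
    constructor
    · intro hk
      obtain ⟨m, n, hmn⟩ := PeriodPair.mem_lattice.1 hk
      have h1 := LinearIndependent.pair_iff.mp L.indep ((m : ℝ) - k / N) n (by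
        simp only [Complex.real_smul]
        push_cast
        linear_combination hmn)
      have h2 : (k : ℝ) = m * N := by
        have := h1.1
        field_simp at this
        linarith
      refine ⟨m, ?_⟩
      have h3 : (k : ℝ) = ((N * m : ℤ) : ℝ) := by
        push_cast
        rw [h2]
        ring
      exact_mod_cast h3
    · rintro ⟨m, rfl⟩
      refine PeriodPair.mem_lattice.2 ⟨m, 0, ?_⟩
      push_cast
      field_simp
      ring

end Fermat.Agent.Lib.Unif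

end
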