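/-
Lib/Unif (architect helper33): complex uniformisation of elliptic curves and analytic Velu.
File `Velu/Dual`: the second quotient `Λ ⊂ Λ' ⊂ (1/N) Λ`.
-/
import Fermat.Agent.Lib.Unif.Velu.Cyclic
import Fermat.Agent.Lib.Unif.Scale

set_option autoImplicit false

noncomputable section

namespace Fermat.Agent.Lib.Unif

open Filter Topology

theorem dual_int_indep (L : PeriodPair) {x y : ℤ} (h : (x : ℂ) * L.ω₁ + (y : ℂ) * L.ω₂ = 0) :
    x = 0 ∧ y = 0 := by
  have h1 := LinearIndependent.pair_iff.mp L.indep (x : ℝ) (y : ℝ) (by simpa using h)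
  exact ⟨by exact_mod_cast h1.1, by exact_mod_cast h1.2⟩

theorem dual_mem_divN (L : PeriodPair) (N : ℕ) [NeZero N] {w : ℂ} :
    w ∈ (divN L N).lattice ↔
      ∃ m n : ℤ, (m : ℂ) * L.ω₁ + (n : ℂ) * (N : ℂ) * L.ω₂ = (N : ℂ) * w := by
  have hN0 : (N : ℂ) ≠ 0 := Nat.cast_ne_zero.2 (NeZero.ne N)
  rw [PeriodPair.mem_lattice]
  show (∃ m n : ℤ, (m : ℂ) * (L.ω₁ / (N : ℂ)) + (n : ℂ) * L.ω₂ = w) ↔ _
  constructor
  · rintro ⟨m, n, h⟩
    refine ⟨m, n, ?_⟩
    rw [← h]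
    field_simp
  · rintro ⟨m, n, h⟩
    refine ⟨m, n, ?_⟩
    apply mul_left_cancel₀ hN0
    rw [← h]
    field_simp

/-- `(1/N) Λ` is a cyclic overlattice of `Λ' = ℤ ω₁/N + ℤ ω₂`, generated by any `z` with
`N z ∈ Λ`, `z ∉ Λ'` (coordinates: `z = (a ω₁ + b ω₂) / N` lies in `Λ'` iff `N ∣ b`;
`PeriodPair.mem_lattice`, `PeriodPair.indep`). -/
theorem isCyclicOver_dual (L : PeriodPair) {N : ℕ} (hN : N.Prime) {z : ℂ}
    (hz : (N : ℂ) * z ∈ L.lattice)
    (hz' : haveI : NeZero N := ⟨hN.ne_zero⟩; z ∉ (divN L N).lattice) :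
    haveI : NeZero N := ⟨hN.ne_zero⟩
    IsCyclicOver (divN L N) (scale L (N : ℂ)⁻¹ (inv_ne_zero (Nat.cast_ne_zero.2 hN.ne_zero))) N z := by
  haveI : NeZero N := ⟨hN.ne_zero⟩
  have hN0 : (N : ℂ) ≠ 0 := Nat.cast_ne_zero.2 hN.ne_zero
  obtain ⟨a, b, hab⟩ := PeriodPair.mem_lattice.1 hz
  have hz'' : z ∉ (divN L N).lattice := hz'
  have hNb : ¬ (N : ℤ) ∣ b := by
    rintro ⟨b', rfl⟩
    apply hz''
    rw [dual_mem_divN]
    refine ⟨a, b', ?_⟩
    rw [← hab]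
    push_cast
    ring
  have hcop : IsCoprime b (N : ℤ) := by
    have hp : Prime (N : ℤ) := Nat.prime_iff_prime_int.1 hN
    exact ((hp.coprime_iff_not_dvd).2 hNb).symm
  refine ⟨?_, ?_⟩
  · intro w
    rw [mem_scale_lattice, div_inv_eq_mul, PeriodPair.mem_lattice]
    constructor
    · rintro ⟨c, d, hcd⟩
      obtain ⟨u, v, huv⟩ := hcop
      refine ⟨d * u, ?_⟩
      rw [dual_mem_divN]
      refine ⟨c - d * u * a, d * v, ?_⟩
      have huv' : (u : ℂ) * b + v * N = 1 := by exact_mod_cast huv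
      have e1 : (N : ℂ) * (w - ((d * u : ℤ) : ℂ) * z) = w * N - (d * u : ℂ) * ((N : ℂ) * z) := by
        push_cast
        ring
      rw [e1, ← hcd, ← hab]
      push_cast
      linear_combination ((d : ℂ) * L.ω₂) * huv'
    · rintro ⟨k, hk⟩
      rw [dual_mem_divN] at hk
      obtain ⟨m, n, hmn⟩ := hk
      refine ⟨m + k * a, n * N + k * b, ?_⟩
      push_cast
      linear_combination hmn + (k : ℂ) * hab
  · intro k
    rw [dual_mem_divN]
    constructor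
    · rintro ⟨m, n, hmn⟩
      have h1 : ((m - k * a : ℤ) : ℂ) * L.ω₁ + ((n * N - k * b : ℤ) : ℂ) * L.ω₂ = 0 := by
        push_cast
        linear_combination hmn - (k : ℂ) * hab
      have h2 := (dual_int_indep L h1).2
      have h3 : (N : ℤ) ∣ k * b := ⟨n, by linarith⟩
      exact (hcop.symm.dvd_of_dvd_mul_right h3)
    · rintro ⟨k', rfl⟩
      refine ⟨N * k' * a, k' * b, ?_⟩
      push_cast
      linear_combination ((N : ℂ) * k') * hab

end Fermat.Agent.Lib.Unif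

end
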