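/-
Lib/Unif (architect helper33): complex uniformisation of elliptic curves and analytic Velu.
File `Velu/Alg`: Velu's formulas for the quotient of a Weierstrass curve `W` over a field by the
cyclic subgroup generated by a point `Q` with `N • Q = 0`.  Sums over ALL `i • Q`, `1 ≤ i < N`, with
integral coefficients.  Pure algebra (Mathlib + S05/XOnly).
-/
import Mathlib
import Fermat.Agent.S05.XOnly

set_option autoImplicit false

noncomputable section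

namespace Fermat.Agent.Lib.Unif

open WeierstrassCurve Fermat.Agent.S05.XOnly

variable {K : Type*} [Field K] [DecidableEq K] (W : WeierstrassCurve K)

/-- Velu's `t = ∑ (3 x² + 2 a₂ x + a₄ - a₁ y)`. -/
def veluT (Q : W.toAffine.Point) (N : ℕ) : K :=
  ∑ i ∈ Finset.Ico 1 N, (3 * xc (i • Q) ^ 2 + 2 * W.a₂ * xc (i • Q) + W.a₄ - W.a₁ * yc (i • Q))

/-- Velu's `w = ∑ (5 x³ + 4 a₂ x² + 3 a₄ x + 2 a₆ - 2 a₁ x y - a₃ y)`. -/
def veluU (Q : W.toAffine.Point) (N : ℕ) : K :=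
  ∑ i ∈ Finset.Ico 1 N, (5 * xc (i • Q) ^ 3 + 4 * W.a₂ * xc (i • Q) ^ 2 + 3 * W.a₄ * xc (i • Q) +
    2 * W.a₆ - 2 * W.a₁ * xc (i • Q) * yc (i • Q) - W.a₃ * yc (i • Q))

/-- Velu's model of `W / ⟨Q⟩`. -/
def veluCurve (Q : W.toAffine.Point) (N : ℕ) : WeierstrassCurve K :=
  ⟨W.a₁, W.a₂, W.a₃, W.a₄ - 5 * veluT W Q N, W.a₆ - W.b₂ * veluT W Q N - 7 * veluU W Q N⟩

/-- Velu's isogeny, `x`-coordinate. -/
def veluX (Q : W.toAffine.Point) (N : ℕ) (T : W.toAffine.Point) : K :=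
  xc T + ∑ i ∈ Finset.Ico 1 N, (xc (T + i • Q) - xc (i • Q))

/-- Velu's isogeny, `y`-coordinate. -/
def veluY (Q : W.toAffine.Point) (N : ℕ) (T : W.toAffine.Point) : K :=
  yc T + ∑ i ∈ Finset.Ico 1 N, (yc (T + i • Q) - yc (i • Q))

variable {W} (Q : W.toAffine.Point) (N : ℕ)

@[simp] theorem veluCurve_a₁ : (veluCurve W Q N).a₁ = W.a₁ := rfl
@[simp] theorem veluCurve_a₂ : (veluCurve W Q N).a₂ = W.a₂ := rfl
@[simp] theorem veluCurve_a₃ : (veluCurve W Q N).a₃ = W.a₃ := rfl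
theorem veluCurve_a₄ : (veluCurve W Q N).a₄ = W.a₄ - 5 * veluT W Q N := rfl
theorem veluCurve_a₆ :
    (veluCurve W Q N).a₆ = W.a₆ - W.b₂ * veluT W Q N - 7 * veluU W Q N := rfl

@[simp] theorem veluCurve_b₂ : (veluCurve W Q N).b₂ = W.b₂ := rfl

theorem veluCurve_c₄ : (veluCurve W Q N).c₄ = W.c₄ + 240 * veluT W Q N := by
  simp only [WeierstrassCurve.c₄, WeierstrassCurve.b₂, WeierstrassCurve.b₄, veluCurve]
  ring

theorem veluCurve_c₆ :
    (veluCurve W Q N).c₆ = W.c₆ + 504 * W.b₂ * veluT W Q N + 6048 * veluU W Q N := by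
  simp only [WeierstrassCurve.c₆, WeierstrassCurve.b₂, WeierstrassCurve.b₄, WeierstrassCurve.b₆,
    veluCurve]
  ring

/-- The reflection `i ↔ N - i` of a sum over the multiples of `Q`. -/
theorem veluAlg_sum_reflect {Q : W.toAffine.Point} {N : ℕ} (hQ : N • Q = 0)
    (f : W.toAffine.Point → K) :
    ∑ i ∈ Finset.Ico 1 N, f (i • Q) = ∑ i ∈ Finset.Ico 1 N, f (-(i • Q)) := by
  have h := Finset.sum_Ico_reflect (fun j => f (j • Q)) 1 (Nat.le_succ N)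
  rw [Nat.add_sub_cancel, Nat.add_sub_cancel_left] at h
  rw [← h]
  refine Finset.sum_congr rfl fun i hi => ?_
  have hi' : i ≤ N := (Finset.mem_Ico.1 hi).2.le
  congr 1
  rw [eq_neg_iff_add_eq_zero, ← add_nsmul, Nat.sub_add_cancel hi', hQ]

/-- symmetrisation `i ↔ N - i` (`Finset.sum_Ico_reflect` or `Finset.sum_bij`, `xc_neg`, `yc_neg`). -/
theorem two_mul_veluT (hQ : N • Q = 0) (hne : ∀ i ∈ Finset.Ico 1 N, i • Q ≠ 0) :
    2 * veluT W Q N =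
      ∑ i ∈ Finset.Ico 1 N, (6 * xc (i • Q) ^ 2 + W.b₂ * xc (i • Q) + W.b₄) := by
  have h := veluAlg_sum_reflect hQ
    (fun P => 3 * xc P ^ 2 + 2 * W.a₂ * xc P + W.a₄ - W.a₁ * yc P)
  have h2 : 2 * veluT W Q N = veluT W Q N + veluT W Q N := two_mul _
  rw [h2]
  beta_reduce at h
  conv_lhs => rw [veluT]; arg 2; rw [h]
  rw [← Finset.sum_add_distrib]
  refine Finset.sum_congr rfl fun i hi => ?_
  rw [xc_neg, yc_neg (hne i hi)]
  simp only [WeierstrassCurve.b₂, WeierstrassCurve.b₄]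
  ring

theorem two_mul_veluU (hQ : N • Q = 0) (hne : ∀ i ∈ Finset.Ico 1 N, i • Q ≠ 0) :
    2 * veluU W Q N =
      ∑ i ∈ Finset.Ico 1 N, (10 * xc (i • Q) ^ 3 + 2 * W.b₂ * xc (i • Q) ^ 2 +
        3 * W.b₄ * xc (i • Q) + W.b₆) := by
  have h := veluAlg_sum_reflect hQ
    (fun P => 5 * xc P ^ 3 + 4 * W.a₂ * xc P ^ 2 + 3 * W.a₄ * xc P +
      2 * W.a₆ - 2 * W.a₁ * xc P * yc P - W.a₃ * yc P)
  have h2 : 2 * veluU W Q N = veluU W Q N + veluU W Q N := two_mul _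
  rw [h2]
  beta_reduce at h
  conv_lhs => rw [veluU]; arg 2; rw [h]
  rw [← Finset.sum_add_distrib]
  refine Finset.sum_congr rfl fun i hi => ?_
  rw [xc_neg, yc_neg (hne i hi)]
  simp only [WeierstrassCurve.b₂, WeierstrassCurve.b₄, WeierstrassCurve.b₆]
  ring

/-- `c₄' = c₄ + ∑ (720 X² - 5 c₄)`, `X = x + b₂ / 12`. -/
theorem veluCurve_c₄' [CharZero K] (hQ : N • Q = 0) (hne : ∀ i ∈ Finset.Ico 1 N, i • Q ≠ 0) :
    (veluCurve W Q N).c₄ =
      W.c₄ + ∑ i ∈ Finset.Ico 1 N, (720 * (xc (i • Q) + W.b₂ / 12) ^ 2 - 5 * W.c₄) := by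
  have h : 240 * veluT W Q N = 120 * (2 * veluT W Q N) := by ring
  rw [veluCurve_c₄, h, two_mul_veluT Q N hQ hne, Finset.mul_sum]
  congr 1
  refine Finset.sum_congr rfl fun i _ => ?_
  simp only [WeierstrassCurve.c₄]
  field_simp
  ring

/-- `c₆' = c₆ + ∑ (30240 X³ - 378 c₄ X - 14 c₆)`, `X = x + b₂ / 12`. -/
theorem veluCurve_c₆' [CharZero K] (hQ : N • Q = 0) (hne : ∀ i ∈ Finset.Ico 1 N, i • Q ≠ 0) :
    (veluCurve W Q N).c₆ =
      W.c₆ + ∑ i ∈ Finset.Ico 1 N, (30240 * (xc (i • Q) + W.b₂ / 12) ^ 3 -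
        378 * W.c₄ * (xc (i • Q) + W.b₂ / 12) - 14 * W.c₆) := by
  have h : W.c₆ + 504 * W.b₂ * veluT W Q N + 6048 * veluU W Q N =
      W.c₆ + (252 * W.b₂ * (2 * veluT W Q N) + 3024 * (2 * veluU W Q N)) := by ring
  rw [veluCurve_c₆, h, two_mul_veluT Q N hQ hne, two_mul_veluU Q N hQ hne, Finset.mul_sum,
    Finset.mul_sum, ← Finset.sum_add_distrib]
  congr 1
  refine Finset.sum_congr rfl fun i _ => ?_
  simp only [WeierstrassCurve.c₄, WeierstrassCurve.c₆]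
  field_simp
  ring

end Fermat.Agent.Lib.Unif

end
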