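/-
Lib/Unif (architect helper33): complex uniformisation of elliptic curves and analytic Velu.
File `Velu/Sums`: `∑ (l - x)⁻⁴` and `∑ (l - x)⁻⁶` in terms of `℘ x`.
-/
import Fermat.Agent.Lib.Unif.Deriv2

set_option autoImplicit false

noncomputable section

namespace Fermat.Agent.Lib.Unif

open Filter Topology

variable (L : PeriodPair)

/-- Taylor coefficients of `℘` at `x ∉ Λ` (`PeriodPair.hasFPowerSeriesOnBall_weierstrassP`,
`coeff_weierstrassPSeries`, `HasFPowerSeriesAt.derivSeries`/`iteratedDeriv` of a power series: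
`iteratedDeriv n f x = n ! * coeff n`). -/
theorem iteratedDeriv_wp {x : ℂ} (hx : x ∉ L.lattice) (n : ℕ) (hn : 1 ≤ n) :
    iteratedDeriv n L.weierstrassP x = (n + 1).factorial * L.sumInvPow x (n + 2) := by
  rw [← L.weierstrassPExcept_of_notMem x hx, L.iteratedDeriv_weierstrassPExcept_self,
    if_neg (by omega)]

private theorem sums_compl_mem_nhds {z : ℂ} (hz : z ∉ L.lattice) :
    ((L.lattice : Set ℂ))ᶜ ∈ 𝓝 z :=
  L.isClosed_lattice.isOpen_compl.mem_nhds hz

private theorem sums_deriv_wp'_eventuallyEq {x : ℂ} (hx : x ∉ L.lattice) :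
    deriv L.derivWeierstrassP =ᶠ[𝓝 x] wp2 L := by
  filter_upwards [sums_compl_mem_nhds L hx] with t ht
  exact (hasDerivAt_wp' L ht).deriv

private theorem sums_deriv_wp2_eventuallyEq {x : ℂ} (hx : x ∉ L.lattice) :
    deriv (wp2 L) =ᶠ[𝓝 x] fun t => 12 * L.weierstrassP t * L.derivWeierstrassP t := by
  filter_upwards [sums_compl_mem_nhds L hx] with t ht
  exact (hasDerivAt_wp2 L ht).deriv

/-- (`hasDerivAt_wp`, `hasDerivAt_wp'` hold on the open set `Λᶜ`.) -/
theorem iteratedDeriv_two_wp {x : ℂ} (hx : x ∉ L.lattice) :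
    iteratedDeriv 2 L.weierstrassP x = 6 * L.weierstrassP x ^ 2 - L.g₂ / 2 := by
  rw [iteratedDeriv_succ', L.deriv_weierstrassP, iteratedDeriv_one, (hasDerivAt_wp' L hx).deriv]
  rfl

/-- (`℘''' = 12 ℘ ℘'`, `℘'''' = 12 ℘'² + 12 ℘ ℘''`, `PeriodPair.derivWeierstrassP_sq`.) -/
theorem iteratedDeriv_four_wp {x : ℂ} (hx : x ∉ L.lattice) :
    iteratedDeriv 4 L.weierstrassP x =
      120 * L.weierstrassP x ^ 3 - 18 * L.g₂ * L.weierstrassP x - 12 * L.g₃ := by
  rw [iteratedDeriv_succ', L.deriv_weierstrassP, iteratedDeriv_succ',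
    (sums_deriv_wp'_eventuallyEq L hx).iteratedDeriv_eq 2, iteratedDeriv_succ',
    (sums_deriv_wp2_eventuallyEq L hx).iteratedDeriv_eq 1, iteratedDeriv_one]
  have h := (((hasDerivAt_wp L hx).const_mul 12).mul (hasDerivAt_wp' L hx)).deriv
  have h' : deriv (fun t => 12 * L.weierstrassP t * L.derivWeierstrassP t) x =
      12 * L.derivWeierstrassP x * L.derivWeierstrassP x + 12 * L.weierstrassP x * wp2 L x := h
  rw [h']
  have hsq := L.derivWeierstrassP_sq x hx
  simp only [wp2]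
  linear_combination 12 * hsq

theorem sumInvPow_four {x : ℂ} (hx : x ∉ L.lattice) :
    L.sumInvPow x 4 = L.weierstrassP x ^ 2 - L.g₂ / 12 := by
  have h := iteratedDeriv_wp L hx 2 (by norm_num)
  rw [iteratedDeriv_two_wp L hx] at h
  have h6 : (((2 + 1).factorial : ℕ) : ℂ) = 6 := by norm_num [Nat.factorial]
  rw [h6] at h
  linear_combination (-1 / 6 : ℂ) * h

theorem sumInvPow_six {x : ℂ} (hx : x ∉ L.lattice) :
    L.sumInvPow x 6 = L.weierstrassP x ^ 3 - 3 / 20 * L.g₂ * L.weierstrassP x - L.g₃ / 10 := by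
  have h := iteratedDeriv_wp L hx 4 (by norm_num)
  rw [iteratedDeriv_four_wp L hx] at h
  have h120 : (((4 + 1).factorial : ℕ) : ℂ) = 120 := by norm_num [Nat.factorial]
  rw [h120] at h
  linear_combination (-1 / 120 : ℂ) * h

end Fermat.Agent.Lib.Unif

end
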