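/-
Lib/Unif (architect helper33): complex uniformisation of elliptic curves and analytic Velu.
File `Velu/Inv`: the invariants `g₂`, `g₃` of a cyclic overlattice (analytic Velu).
-/
import Fermat.Agent.Lib.Unif.Velu.Cyclic
import Fermat.Agent.Lib.Unif.Velu.Sums

set_option autoImplicit false

noncomputable section

namespace Fermat.Agent.Lib.Unif

open Filter Topology

variable {L L' : PeriodPair} {N : ℕ} {z₀ : ℂ}

/-- (`IsCyclicOver.tsum_eq` for `f l = (l ^ n)⁻¹`; summability: `PeriodPair.hasSum_sumInvPow` at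
`x = 0` for `L'`; `Finset.range_eq_Ico`, `Finset.sum_eq_sum_Ico_succ_bot`.) -/
theorem IsCyclicOver.G_eq (h : IsCyclicOver L L' N z₀) (hN : 0 < N) {n : ℕ} (hn : 3 ≤ n) :
    L'.G n = L.G n + ∑ i ∈ Finset.Ico 1 N, L.sumInvPow (-((i : ℂ) * z₀)) n := by
  have hs : Summable fun l : L'.lattice => (((l : ℂ)) ^ n)⁻¹ := by
    have := (L'.hasSum_sumInvPow 0 (r := n) (by omega)).summable
    simpa using this
  have h1 := h.tsum_eq hN (fun l => (l ^ n)⁻¹) hs
  rw [PeriodPair.G, h1, Finset.range_eq_Ico, Finset.sum_eq_sum_Ico_succ_bot hN]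
  congr 1
  · simp [PeriodPair.G]
  · refine Finset.sum_congr rfl fun i _ => ?_
    simp [PeriodPair.sumInvPow]

theorem IsCyclicOver.inv_neg_mul_notMem (h : IsCyclicOver L L' N z₀) {i : ℕ}
    (hi : i ∈ Finset.Ico 1 N) : -((i : ℂ) * z₀) ∉ L.lattice := by
  rw [neg_mem_iff]
  exact h.mul_notMem hi

theorem IsCyclicOver.g₂_eq (h : IsCyclicOver L L' N z₀) (hN : 0 < N) :
    L'.g₂ = L.g₂ + ∑ i ∈ Finset.Ico 1 N, (60 * L.weierstrassP (i * z₀) ^ 2 - 5 * L.g₂) := by
  rw [PeriodPair.g₂, h.G_eq hN (by norm_num), mul_add, ← PeriodPair.g₂, Finset.mul_sum]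
  congr 1
  refine Finset.sum_congr rfl fun i hi => ?_
  rw [sumInvPow_four L (h.inv_neg_mul_notMem hi), PeriodPair.weierstrassP_neg]
  ring

theorem IsCyclicOver.g₃_eq (h : IsCyclicOver L L' N z₀) (hN : 0 < N) :
    L'.g₃ = L.g₃ + ∑ i ∈ Finset.Ico 1 N,
      (140 * L.weierstrassP (i * z₀) ^ 3 - 21 * L.g₂ * L.weierstrassP (i * z₀) - 14 * L.g₃) := by
  rw [PeriodPair.g₃, h.G_eq hN (by norm_num), mul_add, ← PeriodPair.g₃, Finset.mul_sum]
  congr 1
  refine Finset.sum_congr rfl fun i hi => ?_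
  rw [sumInvPow_six L (h.inv_neg_mul_notMem hi), PeriodPair.weierstrassP_neg]
  ring

end Fermat.Agent.Lib.Unif

end
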