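/-
Lib/Unif (architect helper33): complex uniformisation of elliptic curves and analytic Velu.
File `Velu/Curve`: Velu's curve is uniformised by the overlattice.
-/
import Fermat.Agent.Lib.Unif.Velu.Alg
import Fermat.Agent.Lib.Unif.Velu.Inv
import Fermat.Agent.Lib.Unif.Hom

set_option autoImplicit false

noncomputable section

namespace Fermat.Agent.Lib.Unif

open WeierstrassCurve Fermat.Agent.S05.XOnly

variable {W : WeierstrassCurve ℂ} {L L' : PeriodPair} {N : ℕ} {z₀ : ℂ}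

theorem xc_piHom (h : IsUnif W L) {z : ℂ} (hz : z ∉ L.lattice) :
    S05.XOnly.xc (piHom h z) = L.weierstrassP z - W.b₂ / 12 := by
  rw [piHom_apply, piW_of_notMem h hz, S05.XOnly.xc_some]
  rfl

theorem psi_piHom (h : IsUnif W L) {z : ℂ} (hz : z ∉ L.lattice) :
    2 * S05.XOnly.yc (piHom h z) + W.a₁ * S05.XOnly.xc (piHom h z) + W.a₃ =
      L.derivWeierstrassP z := by
  rw [piHom_apply, piW_of_notMem h hz, S05.XOnly.xc_some, S05.XOnly.yc_some]
  unfold Fermat.Agent.Lib.Unif.yc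
  ring

theorem IsUnif.Δ_eq (h : IsUnif W L) : W.Δ = L.g₂ ^ 3 - 27 * L.g₃ ^ 2 := by
  have h1 := W.c_relation
  rw [h.c₄, h.c₆] at h1
  linear_combination (1 / 1728 : ℂ) * h1

theorem nsmul_piHom (h : IsUnif W L) (i : ℕ) (z : ℂ) : i • piHom h z = piHom h (i * z) := by
  rw [← map_nsmul, nsmul_eq_mul]

/-- **analytic Velu**: (`veluCurve_c₄'`, `veluCurve_c₆'`, `IsCyclicOver.g₂_eq`, `g₃_eq`). -/
theorem isUnif_velu (h : IsUnif W L) (hc : IsCyclicOver L L' N z₀) (hN : 0 < N) :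
    IsUnif (veluCurve W (piHom h z₀) N) L' := by
  have hQ : N • piHom h z₀ = 0 := by
    rw [nsmul_piHom, piHom_eq_zero_iff]
    have h1 := (hc.ord (N : ℤ)).2 dvd_rfl
    rwa [Int.cast_natCast] at h1
  have hne : ∀ i ∈ Finset.Ico 1 N, i • piHom h z₀ ≠ 0 := by
    intro i hi
    rw [nsmul_piHom, Ne, piHom_eq_zero_iff]
    exact hc.mul_notMem hi
  have hx : ∀ i ∈ Finset.Ico 1 N,
      S05.XOnly.xc (i • piHom h z₀) + W.b₂ / 12 = L.weierstrassP (i * z₀) := by
    intro i hi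
    rw [nsmul_piHom, xc_piHom h (hc.mul_notMem hi)]
    ring
  constructor
  · rw [veluCurve_c₄' _ _ hQ hne, hc.g₂_eq hN, h.c₄, mul_add, Finset.mul_sum]
    congr 1
    refine Finset.sum_congr rfl fun i hi => ?_
    rw [hx i hi]
    ring
  · rw [veluCurve_c₆' _ _ hQ hne, hc.g₃_eq hN, h.c₄, h.c₆, mul_add, Finset.mul_sum]
    congr 1
    refine Finset.sum_congr rfl fun i hi => ?_
    rw [hx i hi]
    ring

end Fermat.Agent.Lib.Unif

end
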