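/-
Lib/Unif (architect helper33): complex uniformisation of elliptic curves and analytic Velu.
File `Velu/Fun`: `℘` and `℘'` of a cyclic overlattice.
-/
import Fermat.Agent.Lib.Unif.Velu.Cyclic
import Fermat.Agent.Lib.Unif.Basic

set_option autoImplicit false

noncomputable section

namespace Fermat.Agent.Lib.Unif

open Filter Topology

variable {L L' : PeriodPair} {N : ℕ} {z₀ : ℂ}

/-- one coset: `∑_l (1 / (z - (l + c)) ^ 2 - 1 / (l + c) ^ 2) = ℘ (z - c) - ℘ c` for `c ∉ Λ`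
(difference of the two series `PeriodPair.hasSum_weierstrassP` at `z - c` and at `-c`). -/
theorem tsum_coset (L : PeriodPair) {c : ℂ} (hc : c ∉ L.lattice) (z : ℂ) :
    ∑' l : L.lattice, (1 / (z - ((l : ℂ) + c)) ^ 2 - 1 / ((l : ℂ) + c) ^ 2) =
      L.weierstrassP (z - c) - L.weierstrassP c := by
  have h1 := (L.hasSum_weierstrassP (z - c)).sub (L.hasSum_weierstrassP (-c))
  rw [L.weierstrassP_neg] at h1
  rw [← h1.tsum_eq]
  refine tsum_congr fun l => ?_
  have e1 : z - c - (l : ℂ) = z - ((l : ℂ) + c) := by ring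
  have e2 : (-c - (l : ℂ)) ^ 2 = ((l : ℂ) + c) ^ 2 := by ring
  rw [e1, e2]
  ring

/-- (`IsCyclicOver.tsum_eq` applied to `h.neg`, `tsum_coset`.) -/
theorem IsCyclicOver.wp_eq (h : IsCyclicOver L L' N z₀) (hN : 0 < N) (z : ℂ) :
    L'.weierstrassP z = L.weierstrassP z +
      ∑ i ∈ Finset.Ico 1 N, (L.weierstrassP (z + i * z₀) - L.weierstrassP (i * z₀)) := by
  have h1 := h.neg.tsum_eq hN (fun w => 1 / (z - w) ^ 2 - 1 / w ^ 2)
    (L'.hasSum_weierstrassP z).summable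
  have h2 : L'.weierstrassP z = ∑' l : L'.lattice, (1 / (z - (l : ℂ)) ^ 2 - 1 / (l : ℂ) ^ 2) := rfl
  rw [h2, h1, Finset.range_eq_Ico, Finset.sum_eq_sum_Ico_succ_bot hN]
  congr 1
  · simp only [Nat.cast_zero, zero_mul, add_zero]
    rfl
  · refine Finset.sum_congr rfl fun i hi => ?_
    have hc : (i : ℂ) * -z₀ ∉ L.lattice := h.neg.mul_notMem hi
    rw [tsum_coset L hc z]
    have e1 : z - (i : ℂ) * -z₀ = z + i * z₀ := by ring
    have e2 : (i : ℂ) * -z₀ = -(i * z₀) := by ring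
    rw [e1, e2, L.weierstrassP_neg]

theorem IsCyclicOver.wp'_eq (h : IsCyclicOver L L' N z₀) (hN : 0 < N) (z : ℂ) :
    L'.derivWeierstrassP z = ∑ i ∈ Finset.range N, L.derivWeierstrassP (z + i * z₀) := by
  have h1 := h.neg.tsum_eq hN (fun w => -2 / (z - w) ^ 3) (L'.hasSum_derivWeierstrassP z).summable
  rw [← (L'.hasSum_derivWeierstrassP z).tsum_eq, h1]
  refine Finset.sum_congr rfl fun i _ => ?_
  rw [← (L.hasSum_derivWeierstrassP (z + i * z₀)).tsum_eq]
  refine tsum_congr fun l => ?_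
  have e1 : z - ((l : ℂ) + (i : ℂ) * -z₀) = z + i * z₀ - l := by ring
  rw [e1]

/-- oddness: `i ↔ N - i`. -/
theorem IsCyclicOver.sum_wp'_eq_zero (h : IsCyclicOver L L' N z₀) :
    ∑ i ∈ Finset.Ico 1 N, L.derivWeierstrassP (i * z₀) = 0 := by
  have h1 := Finset.sum_Ico_reflect (fun i : ℕ => L.derivWeierstrassP (i * z₀)) 1
    (Nat.le_succ N)
  rw [Nat.add_sub_cancel_left, Nat.add_sub_cancel] at h1
  have hN : (N : ℂ) * z₀ ∈ L.lattice := by
    have := (h.ord (N : ℤ)).2 dvd_rfl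
    simpa using this
  have h2 : ∑ j ∈ Finset.Ico 1 N, L.derivWeierstrassP (((N - j : ℕ) : ℂ) * z₀) =
      - ∑ j ∈ Finset.Ico 1 N, L.derivWeierstrassP (j * z₀) := by
    rw [← Finset.sum_neg_distrib]
    refine Finset.sum_congr rfl fun j hj => ?_
    have hj' : j ≤ N := (Finset.mem_Ico.1 hj).2.le
    rw [Nat.cast_sub hj', ← L.derivWeierstrassP_neg]
    have e : ((N : ℂ) - j) * z₀ = -(j * z₀) + N * z₀ := by ring
    rw [e, wp'_add_of_mem L _ hN]
  rw [h2] at h1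
  have h3 : (2 : ℂ) * ∑ j ∈ Finset.Ico 1 N, L.derivWeierstrassP (j * z₀) = 0 := by
    linear_combination -h1
  simpa using h3

end Fermat.Agent.Lib.Unif

end
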