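/-
Lib/Unif (architect helper33): complex uniformisation of elliptic curves and analytic Velu.
File `Velu/Hom`: Velu's map is the projection `ℂ / Λ → ℂ / Λ'`.
-/
import Fermat.Agent.Lib.Unif.Velu.Curve
import Fermat.Agent.Lib.Unif.Velu.Fun

set_option autoImplicit false

noncomputable section

namespace Fermat.Agent.Lib.Unif

open WeierstrassCurve Fermat.Agent.S05.XOnly

variable {W : WeierstrassCurve ℂ} {L L' : PeriodPair} {N : ℕ} {z₀ : ℂ}

theorem veluHom_add_notMem (hc : IsCyclicOver L L' N z₀) {z : ℂ} (hz : z ∉ L'.lattice) (i : ℕ) :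
    z + i * z₀ ∉ L.lattice := by
  intro h
  apply hz
  rw [hc.mem]
  refine ⟨-(i : ℤ), ?_⟩
  have e : z - ((-(i : ℤ) : ℤ) : ℂ) * z₀ = z + i * z₀ := by push_cast; ring
  rw [e]
  exact h

theorem veluHom_notMem (hc : IsCyclicOver L L' N z₀) {z : ℂ} (hz : z ∉ L'.lattice) :
    z ∉ L.lattice := fun h => hz (hc.le h)

theorem veluHom_add_nsmul (h : IsUnif W L) (z z₀ : ℂ) (i : ℕ) :
    piHom h z + i • piHom h z₀ = piHom h (z + i * z₀) := by
  rw [nsmul_piHom, map_add]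

/-- (`IsCyclicOver.wp_eq`, `xc_piHom`; note `z + i z₀ ∉ Λ` because `z ∉ Λ'`.) -/
theorem veluX_piHom (h : IsUnif W L) (hc : IsCyclicOver L L' N z₀) (hN : 0 < N) {z : ℂ}
    (hz : z ∉ L'.lattice) :
    veluX W (piHom h z₀) N (piHom h z) =
      S05.XOnly.xc (piHom (isUnif_velu h hc hN) z) := by
  rw [xc_piHom (isUnif_velu h hc hN) hz, veluCurve_b₂, hc.wp_eq hN z, veluX,
    xc_piHom h (veluHom_notMem hc hz)]
  have e : ∑ i ∈ Finset.Ico 1 N, (S05.XOnly.xc (piHom h z + i • piHom h z₀) -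
      S05.XOnly.xc (i • piHom h z₀)) =
      ∑ i ∈ Finset.Ico 1 N, (L.weierstrassP (z + i * z₀) - L.weierstrassP (i * z₀)) := by
    refine Finset.sum_congr rfl fun i hi => ?_
    rw [veluHom_add_nsmul, nsmul_piHom, xc_piHom h (veluHom_add_notMem hc hz i),
      xc_piHom h (hc.mul_notMem hi)]
    ring
  rw [e]
  ring

/-- (`IsCyclicOver.wp'_eq`, `sum_wp'_eq_zero`, `psi_piHom`, `veluX_piHom`.) -/
theorem veluY_piHom (h : IsUnif W L) (hc : IsCyclicOver L L' N z₀) (hN : 0 < N) {z : ℂ}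
    (hz : z ∉ L'.lattice) :
    veluY W (piHom h z₀) N (piHom h z) =
      S05.XOnly.yc (piHom (isUnif_velu h hc hN) z) := by
  have hX := veluX_piHom h hc hN hz
  have h1 := psi_piHom (isUnif_velu h hc hN) hz
  rw [veluCurve_a₁, veluCurve_a₃, ← hX, hc.wp'_eq hN z] at h1
  have h2 := psi_piHom h (veluHom_notMem hc hz)
  have h3 : ∀ i ∈ Finset.Ico 1 N,
      2 * (S05.XOnly.yc (piHom h z + i • piHom h z₀) - S05.XOnly.yc (i • piHom h z₀)) +
        W.a₁ * (S05.XOnly.xc (piHom h z + i • piHom h z₀) - S05.XOnly.xc (i • piHom h z₀)) =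
      L.derivWeierstrassP (z + i * z₀) - L.derivWeierstrassP (i * z₀) := by
    intro i hi
    rw [veluHom_add_nsmul, nsmul_piHom, ← psi_piHom h (veluHom_add_notMem hc hz i),
      ← psi_piHom h (hc.mul_notMem hi)]
    ring
  have h4 := Finset.sum_congr rfl h3
  have h4' : ∑ i ∈ Finset.Ico 1 N,
      (L.derivWeierstrassP (z + i * z₀) - L.derivWeierstrassP (i * z₀)) =
      ∑ i ∈ Finset.Ico 1 N, L.derivWeierstrassP (z + i * z₀) := by
    rw [Finset.sum_sub_distrib, hc.sum_wp'_eq_zero, sub_zero]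
  rw [h4', Finset.sum_add_distrib, ← Finset.mul_sum, ← Finset.mul_sum] at h4
  have h5 : ∑ i ∈ Finset.range N, L.derivWeierstrassP (z + i * z₀) =
      L.derivWeierstrassP z + ∑ i ∈ Finset.Ico 1 N, L.derivWeierstrassP (z + i * z₀) := by
    rw [Finset.range_eq_Ico, Finset.sum_eq_sum_Ico_succ_bot hN]
    simp
  rw [h5, ← h4, ← h2] at h1
  rw [veluX] at h1
  rw [veluY]
  have h6 : (2 : ℂ) ≠ 0 := two_ne_zero
  apply mul_left_cancel₀ h6
  linear_combination -h1

/-- abstract: a surjective hom `π : A → B` and a hom `π' : A → C` with `ker π ≤ ker π'` induce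
`φ : B → C` with `φ ∘ π = π'`. -/
theorem exists_factor {A B C : Type*} [AddCommGroup A] [AddCommGroup B] [AddCommGroup C]
    (p : A →+ B) (p' : A →+ C) (hp : Function.Surjective p) (hk : ∀ a, p a = 0 → p' a = 0) :
    ∃ φ : B →+ C, ∀ a, φ (p a) = p' a := by
  refine ⟨p.liftOfSurjective hp ⟨p', fun a ha => hk a ha⟩, fun a => ?_⟩
  exact AddMonoidHom.liftOfRightInverse_comp_apply _ _ _ _ a

/-- **Velu's isogeny over `ℂ`**, in terms of lattices. -/
theorem exists_veluHom_lattice (h : IsUnif W L) (hc : IsCyclicOver L L' N z₀) (hN : 0 < N) :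
    ∃ φ : W.toAffine.Point →+ (veluCurve W (piHom h z₀) N).toAffine.Point,
      (∀ z, φ (piHom h z) = piHom (isUnif_velu h hc hN) z) ∧ Function.Surjective φ ∧
      (∀ T, φ T = 0 ↔ T ∈ AddSubgroup.zmultiples (piHom h z₀)) ∧
      ∀ T, T ∉ AddSubgroup.zmultiples (piHom h z₀) →
        S05.XOnly.xc (φ T) = veluX W (piHom h z₀) N T ∧
        S05.XOnly.yc (φ T) = veluY W (piHom h z₀) N T := by
  obtain ⟨φ, hφ⟩ := exists_factor (piHom h) (piHom (isUnif_velu h hc hN)) (piHom_surjective h)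
    (fun a ha => (piHom_eq_zero_iff _).2 (hc.le ((piHom_eq_zero_iff h).1 ha)))
  have hker : ∀ z : ℂ, piHom h z ∈ AddSubgroup.zmultiples (piHom h z₀) ↔ z ∈ L'.lattice := by
    intro z
    rw [AddSubgroup.mem_zmultiples_iff, hc.mem]
    refine exists_congr fun k => ?_
    rw [← piHom_eq_iff h, ← map_zsmul, zsmul_eq_mul, eq_comm]
  refine ⟨φ, hφ, ?_, ?_, ?_⟩
  · intro P
    obtain ⟨z, rfl⟩ := piHom_surjective (isUnif_velu h hc hN) P
    exact ⟨piHom h z, hφ z⟩
  · intro T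
    obtain ⟨z, rfl⟩ := piHom_surjective h T
    rw [hφ, piHom_eq_zero_iff, hker]
  · intro T hT
    obtain ⟨z, rfl⟩ := piHom_surjective h T
    rw [hker] at hT
    rw [hφ]
    exact ⟨(veluX_piHom h hc hN hT).symm, (veluY_piHom h hc hN hT).symm⟩

end Fermat.Agent.Lib.Unif

end
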